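/-
T4-D (helper4), part 1: **Hilbert 90 for a semilinear action with an open kernel** (Mathlib only).

`Γ` a group acting on a field `K` by ring automorphisms `ρ`; `Γ₀ ≤ Γ` a subgroup of finite index
which is "closed": every `σ ∉ Γ₀` moves some element fixed by `Γ₀`; `t : Γ → Kˣ` a 1-cocycle
(`t (σ τ) = t σ · σ (t τ)`) which is trivial on `Γ₀`.  Then `t` is a coboundary:
`∃ β, ∀ σ, t σ · σ β = β` (Poincaré series over the cosets of `Γ₀` + Dedekind independence).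
-/
import Mathlib

set_option autoImplicit false
set_option linter.unusedSectionVars false
set_option linter.unusedVariables false
set_option linter.style.haveILetI false

namespace Fermat.Agent.T4

section H90

variable {K : Type*} [Field K] {Γ : Type*} [Group Γ] (ρ : Γ →* (K ≃+* K))
  (Γ₀ : Subgroup Γ) [hfin : Γ₀.FiniteIndex]
  (hsep : ∀ σ : Γ, σ ∉ Γ₀ → ∃ c : K, (∀ κ ∈ Γ₀, ρ κ c = c) ∧ ρ σ c ≠ c)
  (t : Γ → Kˣ) (hcoc : ∀ σ τ : Γ, (t (σ * τ) : K) = (t σ : K) * ρ σ (t τ : K))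
  (ht₀ : ∀ κ ∈ Γ₀, t κ = 1)

include hsep hcoc ht₀ in
/-- **Hilbert 90** -/
theorem t4d_hilbert90 : ∃ β : K, β ≠ 0 ∧ ∀ σ : Γ, (t σ : K) * ρ σ β = β := by
  classical
  haveI : Fintype (Γ ⧸ Γ₀) := Subgroup.fintypeQuotientOfFiniteIndex
  -- the submonoid of the elements fixed by `Γ₀`
  set K₁ : Submonoid K :=
    { carrier := {c | ∀ κ ∈ Γ₀, ρ κ c = c}
      mul_mem' := fun {a b} ha hb κ hκ => by rw [map_mul, ha κ hκ, hb κ hκ]
      one_mem' := fun κ _ => map_one _ } with hK₁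
  -- the summand, as a function on `Γ`
  set F : K → Γ → K := fun c σ => (t σ : K) * ρ σ c with hF
  have hFcoset : ∀ c ∈ K₁, ∀ (σ : Γ) (κ : Γ), κ ∈ Γ₀ → F c (σ * κ) = F c σ := by
    intro c hc σ κ hκ
    simp only [hF]
    rw [hcoc, ht₀ κ hκ, Units.val_one, map_one, mul_one, map_mul, RingAut.mul_apply, hc κ hκ]
  -- the representatives
  set rep : Γ ⧸ Γ₀ → Γ := fun x => Quotient.out x with hrep
  have hrepmk : ∀ σ : Γ, ∃ κ ∈ Γ₀, rep (σ : Γ ⧸ Γ₀) = σ * κ := by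
    intro σ
    obtain ⟨κ, hκ⟩ := QuotientGroup.mk_out_eq_mul Γ₀ σ
    exact ⟨κ, κ.2, hκ⟩
  have hFrep : ∀ c ∈ K₁, ∀ σ : Γ, F c (rep (σ : Γ ⧸ Γ₀)) = F c σ := by
    intro c hc σ
    obtain ⟨κ, hκ, h1⟩ := hrepmk σ
    rw [h1, hFcoset c hc σ κ hκ]
  -- the homomorphisms `K₁ → K`
  set φ : Γ ⧸ Γ₀ → (↥K₁ →* K) := fun x =>
    ((ρ (rep x) : K ≃+* K) : K →* K).comp K₁.subtype with hφ
  have hφinj : Function.Injective φ := by
    intro x y hxy
    by_contra hne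
    have h1 : (rep x)⁻¹ * rep y ∉ Γ₀ := by
      intro h2
      apply hne
      have h3 : ((rep x : Γ) : Γ ⧸ Γ₀) = ((rep y : Γ) : Γ ⧸ Γ₀) := QuotientGroup.eq.mpr h2
      rw [hrep] at h3
      simpa using h3
    obtain ⟨c, hc, hc'⟩ := hsep _ h1
    apply hc'
    have h4 := DFunLike.congr_fun hxy ⟨c, hc⟩
    simp only [hφ, MonoidHom.coe_comp, Function.comp_apply, Submonoid.subtype_apply] at h4
    have h5 : ρ (rep x) c = ρ (rep y) c := h4
    rw [map_mul, map_inv, RingAut.mul_apply, ← h5]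
    exact (ρ (rep x)).symm_apply_apply c
  have hlin : LinearIndependent K (fun x : Γ ⧸ Γ₀ => ((φ x : ↥K₁ →* K) : ↥K₁ → K)) :=
    (linearIndependent_monoidHom ↥K₁ K).comp φ hφinj
  -- a non-zero Poincaré series
  have hex : ∃ c : ↥K₁, ∑ x : Γ ⧸ Γ₀, F (c : K) (rep x) ≠ 0 := by
    by_contra hcon
    push Not at hcon
    have h1 : ∑ x : Γ ⧸ Γ₀, (t (rep x) : K) • ((φ x : ↥K₁ →* K) : ↥K₁ → K) = 0 := by
      funext c
      rw [Finset.sum_apply, Pi.zero_apply, ← hcon c]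
      refine Finset.sum_congr rfl fun x _ => ?_
      rfl
    have h2 := (Fintype.linearIndependent_iff.mp hlin) (fun x => (t (rep x) : K)) h1
      ((1 : Γ) : Γ ⧸ Γ₀)
    exact (t (rep ((1 : Γ) : Γ ⧸ Γ₀))).ne_zero h2
  obtain ⟨c, hc⟩ := hex
  refine ⟨∑ x : Γ ⧸ Γ₀, F (c : K) (rep x), hc, fun σ => ?_⟩
  -- the transformation rule
  have h1 : ∀ τ : Γ, (t σ : K) * ρ σ (F (c : K) τ) = F (c : K) (σ * τ) := by
    intro τ
    simp only [hF]
    rw [hcoc, map_mul, map_mul, RingAut.mul_apply, mul_assoc]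
  rw [map_sum, Finset.mul_sum]
  have h2 : ∀ x : Γ ⧸ Γ₀, (t σ : K) * ρ σ (F (c : K) (rep x)) = F (c : K) (rep (σ • x)) := by
    intro x
    rw [h1]
    have h3 : σ • x = ((σ * rep x : Γ) : Γ ⧸ Γ₀) := by
      conv_lhs => rw [← QuotientGroup.out_eq' x]
      rfl
    rw [h3, hFrep (c : K) c.2]
  rw [Finset.sum_congr rfl (fun x _ => h2 x)]
  exact Fintype.sum_equiv (MulAction.toPerm σ) _ _ (fun x => rfl)

end H90

end Fermat.Agent.T4
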