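/-
T4-D (helper4), part 2: **descent of inertia-invariant Kummer classes to the unramified level**.

`𝔓` a place of `ℚ̄` over `p`, `I = 𝔓.I` its inertia group, `K = F_{ℚ̄}` the function field of `X₀(N)`
over `ℚ̄` with the coefficientwise action `tkrSig` of `G_ℚ`.  If `Y ∈ Kˣ` satisfies
`σ Y = Y · t_σ ^ m` for all `σ ∈ I`, then `Y · s ^ m` comes from the function field
`tbLevF 𝔓 N ⊤` over the inertia field `L = ℚ̄^I` (`t4d_descend`).

Proof: normalise the leading coefficient of `Y` to `1`; then the `t_σ` with leading coefficient `1`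
are unique (the `m`-th roots of unity of `K` are constants), hence form a 1-cocycle which is trivial
on the stabiliser of finitely many algebraic numbers; Hilbert 90 (`t4d_hilbert90`) gives `β` with
`t_σ · σ β = β`, and `Y β ^ m` is fixed by `I`.
-/
import Mathlib
import Fermat.Agent.Lib.T4.Desc.H90
import Fermat.Agent.Lib.T2.Gal.Sigma
import Fermat.Agent.Lib.T1.Desc.PowDesc
import Fermat.Agent.Lib.T1.Kron.Assembly

set_option autoImplicit false
set_option linter.unusedSectionVars false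
set_option linter.unusedVariables false
set_option linter.style.haveILetI false

open Fermat.Agent.T1 Fermat.Agent.T2 Fermat.Agent.TW ModularCurve HahnSeries

namespace Fermat.Agent.T4

local notation "Qb" => AlgebraicClosure ℚ
local notation "GQ" => (AlgebraicClosure ℚ ≃ₐ[ℚ] AlgebraicClosure ℚ)

noncomputable section

section Lc

variable (N : ℕ) [NeZero N]

/-- the leading coefficient of the `q`-expansion of a non-zero function -/
def t4dLc : (↥(modularFunctionFieldBar N))ˣ →* Qb where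
  toFun y := ((y : ↥(modularFunctionFieldBar N)) : LaurentSeries Qb).leadingCoeff
  map_one' := HahnSeries.leadingCoeff_one
  map_mul' x y := HahnSeries.leadingCoeff_mul _ _

theorem t4dLc_apply (y : (↥(modularFunctionFieldBar N))ˣ) :
    t4dLc N y = ((y : ↥(modularFunctionFieldBar N)) : LaurentSeries Qb).leadingCoeff := rfl

theorem t4dLc_ne_zero (y : (↥(modularFunctionFieldBar N))ˣ) : t4dLc N y ≠ 0 := by
  rw [t4dLc_apply, HahnSeries.leadingCoeff_ne_zero]
  intro h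
  exact y.ne_zero (Subtype.ext h)

/-- the leading coefficient is Galois equivariant -/
theorem t4dLc_sig (σ : GQ) (y : (↥(modularFunctionFieldBar N))ˣ) :
    t4dLc N (tkrSig N σ y) = σ (t4dLc N y) := by
  rw [t4dLc_apply, t4dLc_apply, tkrSig_coe, HahnSeries.leadingCoeff_eq, HahnSeries.leadingCoeff_eq,
    coeffMap_coeff, tdx_order_coeffMap]
  rfl

/-- the constant functions -/
def t4dC : Qbˣ →* (↥(modularFunctionFieldBar N))ˣ :=
  Units.map ((algebraMap Qb ↥(modularFunctionFieldBar N) : Qb →+* ↥(modularFunctionFieldBar N)) :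
    Qb →* ↥(modularFunctionFieldBar N))

theorem t4dC_coe (c : Qbˣ) :
    (((t4dC N c : (↥(modularFunctionFieldBar N))ˣ) : ↥(modularFunctionFieldBar N)) :
      LaurentSeries Qb) = HahnSeries.C (c : Qb) := by
  show algebraMap Qb (LaurentSeries Qb) (c : Qb) = _
  rw [algebraMap_laurentSeries_eq_single, HahnSeries.C_apply]

theorem t4dLc_C (c : Qbˣ) : t4dLc N (t4dC N c) = (c : Qb) := by
  rw [t4dLc_apply, t4dC_coe, HahnSeries.C_apply, HahnSeries.leadingCoeff_of_single]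

theorem tkrSig_t4dC (σ : GQ) (c : Qbˣ) :
    tkrSig N σ (t4dC N c) = t4dC N (Units.map ((σ : Qb →+* Qb) : Qb →* Qb) c) := by
  apply Units.ext
  exact arithmeticRingAut_algebraMap (modularFunctionFieldFull N) σ (c : Qb)

/-- **uniqueness of normalised roots**: the `m`-th roots of unity of `F_{ℚ̄}` are constants -/
theorem t4d_root_unique {m : ℕ} (hm : m ≠ 0) {t t' : (↥(modularFunctionFieldBar N))ˣ}
    (h : t ^ m = t' ^ m) (hlc : t4dLc N t = t4dLc N t') : t = t' := by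
  set u : (↥(modularFunctionFieldBar N))ˣ := t * t'⁻¹ with hu
  have hum : u ^ m = 1 := by rw [hu, mul_pow, inv_pow, h, mul_inv_cancel]
  have hulc : t4dLc N u = 1 := by
    have h1 : t4dLc N u * t4dLc N t' = t4dLc N t := by rw [← map_mul, hu, inv_mul_cancel_right]
    rw [hlc] at h1
    exact mul_right_cancel₀ (t4dLc_ne_zero N t') (h1.trans (one_mul _).symm)
  set ζ : LaurentSeries Qb := ((u : ↥(modularFunctionFieldBar N)) : LaurentSeries Qb) with hζ
  have hζm : ζ ^ m = 1 := by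
    have := congrArg (fun x : (↥(modularFunctionFieldBar N))ˣ =>
      ((x : ↥(modularFunctionFieldBar N)) : LaurentSeries Qb)) hum
    simpa using this
  obtain ⟨a, ham, ha⟩ := tdx_pow_eq_one (RingHom.id Qb) m hm ζ hζm
  have ha1 : a = 1 := by
    have h1 : t4dLc N u = a := by
      rw [t4dLc_apply, ← hζ, ha, RingHom.id_apply, HahnSeries.C_apply,
        HahnSeries.leadingCoeff_of_single]
    rw [← h1, hulc]
  have hu1 : u = 1 := by
    apply Units.ext
    apply Subtype.ext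
    show ζ = 1
    rw [ha, ha1, RingHom.id_apply, map_one]
  rw [hu, mul_inv_eq_one] at hu1
  exact hu1

end Lc

section Descend

variable (𝔓 : FFPlace) (N : ℕ) [NeZero N]

/-- the coefficientwise action of the inertia group on `F_{ℚ̄}` -/
def t4dRho : ↥𝔓.I →* (↥(modularFunctionFieldBar N) ≃+* ↥(modularFunctionFieldBar N)) :=
  MonoidHom.mk' (fun σ => arithmeticRingAut (modularFunctionFieldFull N) ((σ : 𝔓.I) : GQ))
    (fun σ τ => by
      apply RingEquiv.ext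
      intro x
      apply Subtype.ext
      rw [RingAut.mul_apply, coe_arithmeticRingAut_apply, coe_arithmeticRingAut_apply,
        coe_arithmeticRingAut_apply, coeffMap_coeffMap]
      rfl)

theorem t4dRho_apply (σ : 𝔓.I) (x : ↥(modularFunctionFieldBar N)) :
    t4dRho 𝔓 N σ x = arithmeticRingAut (modularFunctionFieldFull N) ((σ : 𝔓.I) : GQ) x := rfl

theorem t4dRho_coe (σ : 𝔓.I) (y : (↥(modularFunctionFieldBar N))ˣ) :
    t4dRho 𝔓 N σ (y : ↥(modularFunctionFieldBar N))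
      = ((tkrSig N ((σ : 𝔓.I) : GQ) y : (↥(modularFunctionFieldBar N))ˣ) :
          ↥(modularFunctionFieldBar N)) := rfl

/-- **the descent for a normalised function** -/
theorem t4d_descend_normalised {m : ℕ} (hm : m ≠ 0) (Y : (↥(modularFunctionFieldBar N))ˣ)
    (hY : t4dLc N Y = 1)
    (hI : ∀ σ : 𝔓.I, ∃ t : (↥(modularFunctionFieldBar N))ˣ,
      tkrSig N ((σ : 𝔓.I) : GQ) Y = Y * t ^ m) :
    ∃ (s : (↥(modularFunctionFieldBar N))ˣ) (f : ↥(tbLevF 𝔓 N ⊤)),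
      tbPhiF 𝔓 N ⊤ f = ((Y * s ^ m : (↥(modularFunctionFieldBar N))ˣ) :
        ↥(modularFunctionFieldBar N)) := by
  classical
  -- normalised roots
  have hI' : ∀ σ : 𝔓.I, ∃ t : (↥(modularFunctionFieldBar N))ˣ, t4dLc N t = 1 ∧
      tkrSig N ((σ : 𝔓.I) : GQ) Y = Y * t ^ m := by
    intro σ
    obtain ⟨t₀, ht₀⟩ := hI σ
    have h1 : t4dLc N t₀ ^ m = 1 := by
      have := congrArg (t4dLc N) ht₀
      rw [t4dLc_sig, hY, map_one, map_mul, hY, one_mul, map_pow] at this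
      exact this.symm
    set c : Qbˣ := Units.mk0 (t4dLc N t₀) (t4dLc_ne_zero N t₀) with hc
    have hcm : c ^ m = 1 := Units.ext (by rw [Units.val_pow_eq_pow_val, hc, Units.val_mk0, h1]; rfl)
    refine ⟨t₀ * (t4dC N c)⁻¹, ?_, ?_⟩
    · rw [map_mul, map_inv, t4dLc_C, hc, Units.val_mk0]
      exact mul_inv_cancel₀ (t4dLc_ne_zero N t₀)
    · rw [mul_pow, inv_pow, ← map_pow, hcm, map_one, inv_one, mul_one, ht₀]
  choose t htlc ht using hI'
  -- the cocycle relation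
  have hcoc : ∀ σ τ : 𝔓.I, t (σ * τ) = t σ * tkrSig N ((σ : 𝔓.I) : GQ) (t τ) := by
    intro σ τ
    apply t4d_root_unique N hm
    · have h1 : tkrSig N (((σ * τ : 𝔓.I) : 𝔓.I) : GQ) Y
          = tkrSig N ((σ : 𝔓.I) : GQ) (tkrSig N ((τ : 𝔓.I) : GQ) Y) := by
        apply Units.ext
        apply Subtype.ext
        rw [tkrSig_coe, tkrSig_coe, tkrSig_coe, coeffMap_coeffMap]
        rfl
      have h2 := ht (σ * τ)
      rw [h1, ht τ, map_mul, map_pow, ht σ, mul_assoc] at h2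
      have h3 := mul_left_cancel h2
      rw [← mul_pow] at h3
      exact h3.symm
    · rw [htlc, map_mul, htlc, t4dLc_sig, htlc, map_one, one_mul]
  -- the finite set of algebraic numbers
  obtain ⟨S, hS⟩ := tbd_exists_finset (modularFunctionFieldFull N)
    (h := ((Y : ↥(modularFunctionFieldBar N)) : LaurentSeries Qb))
    (Y : ↥(modularFunctionFieldBar N)).2
  set Γ₀ : Subgroup 𝔓.I := ⨅ z ∈ S, MulAction.stabilizer ↥𝔓.I z with hΓ₀
  haveI : Γ₀.FiniteIndex :=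
    Subgroup.finiteIndex_iInf' _ (fun z _ => tb_finiteIndex_stabilizer 𝔓 z)
  have hΓ₀S : ∀ z ∈ S, z ∈ tbFix 𝔓 Γ₀ := by
    intro z hz
    rw [mem_tbFix]
    intro σ hσ
    have h1 : σ ∈ MulAction.stabilizer ↥𝔓.I z := by
      have := (Subgroup.mem_iInf.mp hσ) z
      exact (Subgroup.mem_iInf.mp this) hz
    exact MulAction.mem_stabilizer_iff.mp h1
  -- `Y` is fixed by `Γ₀`
  have hYfix : ∀ κ ∈ Γ₀, tkrSig N ((κ : 𝔓.I) : GQ) Y = Y := by
    intro κ hκ
    obtain ⟨hE, hEmem, hEY⟩ := hS (tbFix 𝔓 Γ₀) hΓ₀S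
    have h1 := t2w_arith_tbPhiF 𝔓 N Γ₀ κ hκ ⟨hE, hEmem⟩
    have h2 : tbPhiF 𝔓 N Γ₀ ⟨hE, hEmem⟩ = (Y : ↥(modularFunctionFieldBar N)) := Subtype.ext hEY
    rw [h2] at h1
    exact Units.ext h1
  have ht₀ : ∀ κ ∈ Γ₀, t κ = 1 := by
    intro κ hκ
    apply t4d_root_unique N hm
    · have h1 := ht κ
      rw [hYfix κ hκ] at h1
      rw [one_pow]
      exact (mul_left_cancel (h1.symm.trans (mul_one Y).symm))
    · rw [htlc, map_one]
  -- separation
  have hsep : ∀ σ : 𝔓.I, σ ∉ Γ₀ → ∃ c : ↥(modularFunctionFieldBar N),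
      (∀ κ ∈ Γ₀, t4dRho 𝔓 N κ c = c) ∧ t4dRho 𝔓 N σ c ≠ c := by
    intro σ hσ
    have h1 : ∃ z ∈ S, ((σ : 𝔓.I) : GQ) z ≠ z := by
      by_contra hcon
      push Not at hcon
      apply hσ
      rw [hΓ₀]
      refine Subgroup.mem_iInf.mpr fun z => Subgroup.mem_iInf.mpr fun hz => ?_
      exact MulAction.mem_stabilizer_iff.mpr (hcon z hz)
    obtain ⟨z, hz, hσz⟩ := h1
    refine ⟨algebraMap Qb ↥(modularFunctionFieldBar N) z, fun κ hκ => ?_, ?_⟩
    · rw [t4dRho_apply, arithmeticRingAut_algebraMap]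
      have := (mem_tbFix 𝔓 Γ₀ z).mp (hΓ₀S z hz) κ hκ
      rw [this]
    · rw [t4dRho_apply, arithmeticRingAut_algebraMap]
      intro h2
      exact hσz ((algebraMap Qb ↥(modularFunctionFieldBar N)).injective h2)
  -- Hilbert 90
  obtain ⟨β, hβ0, hβ⟩ := t4d_hilbert90 (t4dRho 𝔓 N) Γ₀ hsep t
    (fun σ τ => by
      rw [hcoc σ τ, Units.val_mul]
      rfl) ht₀
  set β' : (↥(modularFunctionFieldBar N))ˣ := Units.mk0 β hβ0 with hβ'
  have hβ'' : ∀ σ : 𝔓.I, t σ * tkrSig N ((σ : 𝔓.I) : GQ) β' = β' := by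
    intro σ
    apply Units.ext
    rw [Units.val_mul]
    exact hβ σ
  -- `Y β ^ m` is fixed by inertia
  have hfix : ∀ σ : 𝔓.I, tkrSig N ((σ : 𝔓.I) : GQ) (Y * β' ^ m) = Y * β' ^ m := by
    intro σ
    rw [map_mul, map_pow, ht σ, mul_assoc, ← mul_pow, hβ'' σ]
  obtain ⟨f, hf⟩ := t2w_exists_tbPhiF_eq 𝔓 N ⊤
    ((Y * β' ^ m : (↥(modularFunctionFieldBar N))ˣ) : ↥(modularFunctionFieldBar N))
    (fun σ _ => by
      have := congrArg (fun x : (↥(modularFunctionFieldBar N))ˣ =>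
        (x : ↥(modularFunctionFieldBar N))) (hfix σ)
      exact this)
  exact ⟨β', f, hf⟩

/-- **descent of inertia-invariant Kummer classes to the inertia field**: if `σ Y = Y t_σ ^ m` for
all `σ` in the inertia group, then `Y s ^ m` is defined over `L = ℚ̄^I` for some `s` -/
theorem t4d_descend {m : ℕ} (hm : m ≠ 0) (Y : (↥(modularFunctionFieldBar N))ˣ)
    (hI : ∀ σ ∈ 𝔓.I, ∃ t : (↥(modularFunctionFieldBar N))ˣ, tkrSig N σ Y = Y * t ^ m) :
    ∃ (s : (↥(modularFunctionFieldBar N))ˣ) (f : ↥(tbLevF 𝔓 N ⊤)),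
      tbPhiF 𝔓 N ⊤ f = ((Y * s ^ m : (↥(modularFunctionFieldBar N))ˣ) :
        ↥(modularFunctionFieldBar N)) := by
  obtain ⟨b, hb⟩ := IsAlgClosed.exists_pow_nat_eq (t4dLc N Y) (Nat.pos_of_ne_zero hm)
  have hb0 : b ≠ 0 := by
    rintro rfl
    rw [zero_pow hm] at hb
    exact t4dLc_ne_zero N Y hb.symm
  set bu : Qbˣ := Units.mk0 b hb0 with hbu
  set Y₁ : (↥(modularFunctionFieldBar N))ˣ := Y * (t4dC N bu⁻¹) ^ m with hY₁
  have hY₁lc : t4dLc N Y₁ = 1 := by
    rw [hY₁, map_mul, map_pow, t4dLc_C, Units.val_inv_eq_inv_val, hbu, Units.val_mk0, inv_pow, hb]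
    exact mul_inv_cancel₀ (t4dLc_ne_zero N Y)
  have hI₁ : ∀ σ : 𝔓.I, ∃ t : (↥(modularFunctionFieldBar N))ˣ,
      tkrSig N ((σ : 𝔓.I) : GQ) Y₁ = Y₁ * t ^ m := by
    intro σ
    obtain ⟨t₀, ht₀⟩ := hI σ σ.2
    refine ⟨t₀ * t4dC N bu * t4dC N (Units.map ((((σ : 𝔓.I) : GQ) : Qb →+* Qb) : Qb →* Qb) bu⁻¹),
      ?_⟩
    have h1 : t4dC N bu⁻¹ ^ m * t4dC N bu ^ m = 1 := by
      rw [← mul_pow, ← map_mul, inv_mul_cancel, map_one, one_pow]
    rw [hY₁, map_mul, map_pow, ht₀, tkrSig_t4dC, mul_pow, mul_pow]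
    set Z := t4dC N (Units.map ((((σ : 𝔓.I) : GQ) : Qb →+* Qb) : Qb →* Qb) bu⁻¹) ^ m with hZ
    rw [show Y * t4dC N bu⁻¹ ^ m * (t₀ ^ m * t4dC N bu ^ m * Z)
        = Y * t₀ ^ m * Z * (t4dC N bu⁻¹ ^ m * t4dC N bu ^ m) by ac_rfl, h1, mul_one]
  obtain ⟨s₁, f, hf⟩ := t4d_descend_normalised 𝔓 N hm Y₁ hY₁lc hI₁
  refine ⟨t4dC N bu⁻¹ * s₁, f, ?_⟩
  rw [hf, hY₁, mul_pow, mul_assoc]

/-- **roots descend to the inertia field up to constants**: a function over `L = ℚ̄^I` which is an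
`m`-th power over `ℚ̄` is a constant times an `m`-th power over `L` -/
theorem t4d_root_descend {m : ℕ} (hm : m ≠ 0) (f : ↥(tbLevF 𝔓 N ⊤)) (hf0 : f ≠ 0)
    (hf : ∃ t : ↥(modularFunctionFieldBar N), tbPhiF 𝔓 N ⊤ f = t ^ m) :
    ∃ (c : ↥(tbFix 𝔓 ⊤)) (g : ↥(tbLevF 𝔓 N ⊤)), c ≠ 0 ∧ f = c • g ^ m := by
  obtain ⟨t, ht⟩ := hf
  have hφf0 : tbPhiF 𝔓 N ⊤ f ≠ 0 := fun h => hf0 (tbPhiF_injective 𝔓 N ⊤ (h.trans (map_zero _).symm))
  have ht0 : t ≠ 0 := by
    rintro rfl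
    rw [zero_pow hm] at ht
    exact hφf0 ht
  set tu : (↥(modularFunctionFieldBar N))ˣ := Units.mk0 t ht0 with htu
  set fu : (↥(modularFunctionFieldBar N))ˣ := Units.mk0 (tbPhiF 𝔓 N ⊤ f) hφf0 with hfu
  have hfu' : fu = tu ^ m := Units.ext (by rw [Units.val_pow_eq_pow_val]; exact ht)
  -- `f` is fixed by inertia
  have hfix : ∀ σ : 𝔓.I, tkrSig N ((σ : 𝔓.I) : GQ) fu = fu := by
    intro σ
    apply Units.ext
    exact t2w_arith_tbPhiF 𝔓 N ⊤ σ (Subgroup.mem_top σ) f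
  -- the leading coefficient
  set a : Qb := t4dLc N tu with ha
  have ha0 : a ≠ 0 := t4dLc_ne_zero N tu
  set au : Qbˣ := Units.mk0 a ha0 with hau
  set t₁ : (↥(modularFunctionFieldBar N))ˣ := tu * (t4dC N au)⁻¹ with ht₁
  have ht₁lc : t4dLc N t₁ = 1 := by
    rw [ht₁, map_mul, map_inv, t4dLc_C, hau, Units.val_mk0]
    exact mul_inv_cancel₀ ha0
  -- `a ^ m` is fixed by inertia
  have hafix : ∀ σ : 𝔓.I, ((σ : 𝔓.I) : GQ) (a ^ m) = a ^ m := by
    intro σ
    have h1 : t4dLc N fu = a ^ m := by rw [hfu', map_pow]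
    rw [← h1, ← t4dLc_sig, hfix σ]
  -- `t₁` is fixed by inertia
  have ht₁fix : ∀ σ : 𝔓.I, tkrSig N ((σ : 𝔓.I) : GQ) t₁ = t₁ := by
    intro σ
    apply t4d_root_unique N hm
    · have h1 : t₁ ^ m = fu * (t4dC N (au ^ m))⁻¹ := by
        rw [ht₁, mul_pow, inv_pow, ← map_pow, hfu']
      rw [← map_pow, h1, map_mul, map_inv, hfix σ, tkrSig_t4dC]
      congr 3
      apply Units.ext
      rw [Units.coe_map, Units.val_pow_eq_pow_val, hau, Units.val_mk0]
      exact hafix σ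
    · rw [t4dLc_sig, ht₁lc, map_one]
  obtain ⟨g, hg⟩ := t2w_exists_tbPhiF_eq 𝔓 N ⊤ (t₁ : ↥(modularFunctionFieldBar N))
    (fun σ _ => congrArg (fun x : (↥(modularFunctionFieldBar N))ˣ =>
        (x : ↥(modularFunctionFieldBar N))) (ht₁fix σ))
  have hamem : a ^ m ∈ tbFix 𝔓 ⊤ := by
    rw [mem_tbFix]
    intro σ _
    exact hafix σ
  refine ⟨⟨a ^ m, hamem⟩, g, ?_, ?_⟩
  · intro h0
    have := congrArg (fun x : ↥(tbFix 𝔓 ⊤) => (x : Qb)) h0
    exact pow_ne_zero m ha0 this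
  · apply tbPhiF_injective 𝔓 N ⊤
    rw [tbPhiF_smul, map_pow, hg, ht, ht₁, Units.val_mul, mul_pow, Algebra.smul_def]
    have h2 : ((t4dC N au)⁻¹ : (↥(modularFunctionFieldBar N))ˣ).val ^ m
        * algebraMap Qb ↥(modularFunctionFieldBar N) (a ^ m) = 1 := by
      have h3 : (((t4dC N au)⁻¹ ^ m * t4dC N (au ^ m) : (↥(modularFunctionFieldBar N))ˣ) :
          ↥(modularFunctionFieldBar N)) = 1 := by
        rw [map_pow, ← mul_pow, inv_mul_cancel, one_pow, Units.val_one]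
      rw [Units.val_mul, Units.val_pow_eq_pow_val] at h3
      rw [← h3]
      congr 1
    show tu.val ^ m = algebraMap Qb ↥(modularFunctionFieldBar N) (a ^ m) * (tu.val ^ m * _)
    rw [mul_comm (algebraMap Qb ↥(modularFunctionFieldBar N) (a ^ m)), mul_assoc, h2, mul_one]

end Descend

end

end Fermat.Agent.T4
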