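/-
T4-D (helper4), part 3: **reduction of (NEW) to Kummer functions defined over the inertia field**.

`T4NewUnrAt wU N'' q h` is `T4NewAt wU N'' q h` where the inertia-invariance of the class of `y` is
replaced by: `y` comes from the function field `tbLevF 𝔓 N ⊤` over the inertia field `L = ℚ̄^I`
(`𝔓 = ⟨A, q, _, _⟩`); `t4d_newAt_of_unr : T4NewUnrAt wU N'' q h → T4NewAt wU N'' q h` (by `t4d_descend`).
-/
import Mathlib
import Fermat.Agent.Lib.T4.Defs
import Fermat.Agent.Lib.T4.Desc.Descend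

set_option autoImplicit false
set_option linter.unusedSectionVars false
set_option linter.unusedVariables false
set_option linter.style.haveILetI false

open Fermat.Agent.T1 Fermat.Agent.T2 Fermat.Agent.TW ModularCurve Fermat.Agent.S24Lib

namespace Fermat.Agent.T4

local notation "Kbar" => AlgebraicClosure ℚ
local notation "GQ" => (AlgebraicClosure ℚ ≃ₐ[ℚ] AlgebraicClosure ℚ)

/-- **(NEW) for functions defined over the inertia field** -/
def T4NewUnrAt (wU : T4gWType) (N'' q : ℕ) [NeZero N''] [hq : Fact q.Prime] (h : ¬ q ∣ N'')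
    [NeZero (N'' * q * q)] : Prop :=
  ∀ (A : ValuationSubring Kbar) (hA : A.LiesOverPrime q),
    ∀ m : ℕ, Nat.Coprime m q → m ≠ 0 →
      ∀ y : (↥(modularFunctionFieldBar (N'' * q * q)))ˣ, y ∈ tWsub Kbar (N'' * q * q) m →
        (∃ f : ↥(tbLevF (⟨A, q, hq.out, hA⟩ : FFPlace) (N'' * q * q) ⊤),
          tbPhiF (⟨A, q, hq.out, hA⟩ : FFPlace) (N'' * q * q) ⊤ f
            = (y : ↥(modularFunctionFieldBar (N'' * q * q)))) →
        (∃ t : (↥(modularFunctionFieldBar (N'' * q * q)))ˣ,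
          tkrHeckeUUnits (N'' * q * q) q y = t ^ m) →
        (∃ t : (↥(modularFunctionFieldBar (N'' * q * q)))ˣ,
          tkrHeckeUUnits (N'' * q * q) q (wU N'' q h y) = t ^ m) →
        ∃ t : (↥(modularFunctionFieldBar (N'' * q * q)))ˣ, y ^ ((q ^ 2 - 1) ^ 2) = t ^ m

/-- **(NEW) from (NEW) over the inertia field** -/
theorem t4d_newAt_of_unr (wU : T4gWType) (N'' q : ℕ) [NeZero N''] [hq : Fact q.Prime]
    (h : ¬ q ∣ N'') [NeZero (N'' * q * q)] (hunr : T4NewUnrAt wU N'' q h) :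
    T4NewAt wU N'' q h := by
  intro A hA m hmq hm y hy hI hU hUW
  set 𝔓 : FFPlace := ⟨A, q, hq.out, hA⟩ with h𝔓
  obtain ⟨s, f, hf⟩ := t4d_descend 𝔓 (N'' * q * q) hm y hI
  obtain ⟨t₁, ht₁⟩ := hU
  obtain ⟨t₂, ht₂⟩ := hUW
  obtain ⟨t, ht⟩ := hunr A hA m hmq hm (y * s ^ m)
    ((tWsub Kbar (N'' * q * q) m).mul_mem hy (tkr_pow_mem_tWsub (N'' * q * q) m s)) ⟨f, hf⟩
    ⟨t₁ * tkrHeckeUUnits (N'' * q * q) q s, by rw [map_mul, map_pow, ht₁, mul_pow]⟩
    ⟨t₂ * tkrHeckeUUnits (N'' * q * q) q (wU N'' q h s), by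
      rw [map_mul, map_mul, map_pow, map_pow, ht₂, mul_pow]⟩
  refine ⟨t * (s ^ ((q ^ 2 - 1) ^ 2))⁻¹, ?_⟩
  rw [mul_pow, ← ht, mul_pow, inv_pow, ← pow_mul, ← pow_mul, mul_comm m, mul_inv_cancel_right]

/-- **(NEW) over the inertia field at the levels without elliptic points**: the target of the
geometry (T4-N) -/
def T4NewUnrAux (wU : T4gWType) : Prop :=
  ∀ (N'' q : ℕ) [NeZero N''] [Fact q.Prime] (h : ¬ q ∣ N'') [NeZero (N'' * q * q)],
    (4 ∣ N'' ∨ 9 ∣ N'') → T4NewUnrAt wU N'' q h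

theorem t4d_newAux_of_unr (wU : T4gWType) (hunr : T4NewUnrAux wU) : T4NewAux wU :=
  fun N'' q _ _ h _ h49 => t4d_newAt_of_unr wU N'' q h (hunr N'' q h h49)

end Fermat.Agent.T4
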