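/-
T4-D (helper4), part 4: **variants and compatibilities for T4-N**.

* `t4d_root_descend_const`: a function over the inertia field `L` which is `constant × m-th power`
  over `ℚ̄` is `constant × m-th power` over `L`;
* `t4d_wU_tbPhiF`: the function-level `w_{q²}` over `ℚ̄` (lead's `t4wU` at `Q = q * q`) restricts to
  `t4wSq 𝔓 ⊤ N'' h` over `L`.
-/
import Mathlib
import Fermat.Agent.Lib.T4.Desc.Descend
import Fermat.Agent.Lib.T4.Inst.ALData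
import Fermat.Agent.Lib.T4.Inst.ALUnits

set_option autoImplicit false
set_option linter.unusedSectionVars false
set_option linter.unusedVariables false
set_option linter.style.haveILetI false

open Fermat.Agent.T1 Fermat.Agent.T2 Fermat.Agent.TW ModularCurve

namespace Fermat.Agent.T4

local notation "Qb" => AlgebraicClosure ℚ
local notation "GQ" => (AlgebraicClosure ℚ ≃ₐ[ℚ] AlgebraicClosure ℚ)

/-- **`constant × m-th power` descends to the inertia field** -/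
theorem t4d_root_descend_const (𝔓 : FFPlace) (N : ℕ) [NeZero N] {m : ℕ} (hm : m ≠ 0)
    (f : ↥(tbLevF 𝔓 N ⊤)) (hf0 : f ≠ 0)
    (hf : ∃ (c : Qb) (t : ↥(modularFunctionFieldBar N)),
      tbPhiF 𝔓 N ⊤ f = algebraMap Qb ↥(modularFunctionFieldBar N) c * t ^ m) :
    ∃ (c : ↥(tbFix 𝔓 ⊤)) (g : ↥(tbLevF 𝔓 N ⊤)), c ≠ 0 ∧ g ≠ 0 ∧ f = c • g ^ m := by
  obtain ⟨c, t, hct⟩ := hf
  obtain ⟨b, hb⟩ := IsAlgClosed.exists_pow_nat_eq c (Nat.pos_of_ne_zero hm)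
  obtain ⟨c₀, g, hc₀, hfg⟩ := t4d_root_descend 𝔓 N hm f hf0
    ⟨algebraMap Qb ↥(modularFunctionFieldBar N) b * t, by rw [hct, mul_pow, ← map_pow, hb]⟩
  refine ⟨c₀, g, hc₀, ?_, hfg⟩
  rintro rfl
  rw [zero_pow hm, smul_zero] at hfg
  exact hf0 hfg

/-- **`w_{q²}` over `ℚ̄` restricts to `w_{q²}` over the level fields** -/
theorem t4d_wU_tbPhiF (𝔓 : FFPlace) (H : Subgroup 𝔓.I) (N'' : ℕ) [NeZero N''] (h : ¬ 𝔓.p ∣ N'')
    [NeZero (N'' * 𝔓.p * 𝔓.p)]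
    (hN : N'' * 𝔓.p * 𝔓.p = N'' * (𝔓.p * 𝔓.p)) (hcop : Nat.Coprime (𝔓.p * 𝔓.p) N'')
    (y : (↥(modularFunctionFieldBar (N'' * 𝔓.p * 𝔓.p)))ˣ) (f : ↥(tbLevF 𝔓 (N'' * 𝔓.p * 𝔓.p) H))
    (hf : tbPhiF 𝔓 (N'' * 𝔓.p * 𝔓.p) H f = (y : ↥(modularFunctionFieldBar (N'' * 𝔓.p * 𝔓.p)))) :
    tbPhiF 𝔓 (N'' * 𝔓.p * 𝔓.p) H (t4wSq 𝔓 H N'' h f)
      = ((t4wU (N'' * 𝔓.p * 𝔓.p) N'' (𝔓.p * 𝔓.p) hN hcop y :
          (↥(modularFunctionFieldBar (N'' * 𝔓.p * 𝔓.p)))ˣ) :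
          ↥(modularFunctionFieldBar (N'' * 𝔓.p * 𝔓.p))) := by
  rw [tbPhiF_t4wSq, hf, t4wU_coe]

end Fermat.Agent.T4
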